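import Fermat.Agent.S17.HN.Grp.North
import Fermat.Agent.S27.A.Api

/-! # HN-GRP7: the proof fields `add_rel`, `sub_rel`, `inj`, `siegel` of `grpAx` -/

set_option autoImplicit false

namespace Fermat.Agent.S17.HN

open AlgebraicCurve Fermat.Agent.S24.FF Fermat.Agent.S27 Fermat.Agent.GAL.FF Fermat.Agent.S17.FFK

variable (X : RatCurve) (𝔥 : GHt)

/-- the chosen Galois stable representative of degree `g`. -/
noncomputable def AxR (x : X.Gam) : Place Qb X.F →₀ ℕ := Classical.choose (exists_Ax X x)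

theorem AxR_degree (x : X.Gam) : (AxR X x).degree = gen X :=
  (Classical.choose_spec (exists_Ax X x)).1

theorem AxR_stable (x : X.Gam) (σ : GQ) :
    X.act σ • (FO.up (AxR X x) : Divisor Qb X.F) = FO.up (AxR X x) :=
  (Classical.choose_spec (exists_Ax X x)).2.1 σ

theorem AxR_cls (x : X.Gam) :
    cls ((FO.up (AxR X x) : Divisor Qb X.F) - X.nInf (gen X)) = (x : Pic0 Qb X.F) :=
  (Classical.choose_spec (exists_Ax X x)).2.2

theorem grp7_degree_nInf (n : ℕ) : Divisor.degree (X.nInf n) = n := by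
  unfold RatCurve.nInf
  rw [Divisor.degree_single, deg_eq_one]
  simp

theorem grp7_degree_dz (x : X.Gam) :
    Divisor.degree ((FO.up (AxR X x) : Divisor Qb X.F) - X.nInf (gen X)) = 0 := by
  rw [map_sub, degree_up, AxR_degree, grp7_degree_nInf, sub_self]

theorem grp7_mem_principal {D : Divisor Qb X.F} (hD : Divisor.degree D = 0) (h : cls D = 0) :
    D ∈ Divisor.principal (K := Qb) (F := X.F) :=
  (cls_eq_zero_iff hD).mp h

theorem grp7_cls_of_principal {D : Divisor Qb X.F} (hD : Divisor.degree D = 0)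
    (h : D ∈ Divisor.principal (K := Qb) (F := X.F)) : cls D = 0 :=
  (cls_eq_zero_iff hD).mpr h

theorem grp7_le : 2 * gen X + gen X ≤ (3 * gen X + 1) * n0 X := by
  have h : 1 ≤ n0 X := by unfold n0; omega
  nlinarith

theorem grp7_add_rel (x y : X.Gam) : ∃ c c' : FnT X (3 * gen X + 1),
    AxR X (x + y) + Finsupp.single X.inf (gen X) + DvN X ((3 * gen X + 1) * n0 X) c'.1 =
      AxR X x + AxR X y + DvN X ((3 * gen X + 1) * n0 X) c.1 := by
  obtain ⟨c, c', hc, hc', h⟩ := exists_rel X ((3 * gen X + 1) * n0 X) (2 * gen X) (grp7_le X)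
    (AxR X (x + y) + Finsupp.single X.inf (gen X)) (AxR X x + AxR X y)
    (by rw [map_add, AxR_degree, Finsupp.degree_single]; ring)
    (by rw [map_add, AxR_degree, AxR_degree]; ring) (by
      have e : (FO.up (AxR X (x + y) + Finsupp.single X.inf (gen X)) : Divisor Qb X.F) -
          FO.up (AxR X x + AxR X y) =
          ((FO.up (AxR X (x + y)) : Divisor Qb X.F) - X.nInf (gen X)) -
            ((FO.up (AxR X x) : Divisor Qb X.F) - X.nInf (gen X)) -
            ((FO.up (AxR X y) : Divisor Qb X.F) - X.nInf (gen X)) := by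
        rw [up_add, up_add, up_single]
        unfold RatCurve.nInf
        abel
      rw [e]
      have d1 := grp7_degree_dz X (x + y)
      have d2 := grp7_degree_dz X x
      have d3 := grp7_degree_dz X y
      have d12 : Divisor.degree (((FO.up (AxR X (x + y)) : Divisor Qb X.F) - X.nInf (gen X)) -
            ((FO.up (AxR X x) : Divisor Qb X.F) - X.nInf (gen X))) = 0 := by
        rw [map_sub, d1, d2, sub_zero]
      apply grp7_mem_principal X (by rw [map_sub, d12, d3, sub_zero])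
      rw [cls_sub d12 d3, cls_sub d1 d2, AxR_cls, AxR_cls, AxR_cls]
      push_cast
      abel)
  exact ⟨⟨c, hc⟩, ⟨c', hc'⟩, h⟩

theorem grp7_sub_rel (x y : X.Gam) : ∃ c c' : FnT X (3 * gen X + 1),
    AxR X (x - y) + AxR X y + DvN X ((3 * gen X + 1) * n0 X) c'.1 =
      AxR X x + Finsupp.single X.inf (gen X) + DvN X ((3 * gen X + 1) * n0 X) c.1 := by
  obtain ⟨c, c', hc, hc', h⟩ := exists_rel X ((3 * gen X + 1) * n0 X) (2 * gen X) (grp7_le X)
    (AxR X (x - y) + AxR X y) (AxR X x + Finsupp.single X.inf (gen X))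
    (by rw [map_add, AxR_degree, AxR_degree]; ring)
    (by rw [map_add, AxR_degree, Finsupp.degree_single]; ring) (by
      have e : (FO.up (AxR X (x - y) + AxR X y) : Divisor Qb X.F) -
          FO.up (AxR X x + Finsupp.single X.inf (gen X)) =
          ((FO.up (AxR X (x - y)) : Divisor Qb X.F) - X.nInf (gen X)) +
            ((FO.up (AxR X y) : Divisor Qb X.F) - X.nInf (gen X)) -
            ((FO.up (AxR X x) : Divisor Qb X.F) - X.nInf (gen X)) := by
        rw [up_add, up_add, up_single]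
        unfold RatCurve.nInf
        abel
      rw [e]
      have d1 := grp7_degree_dz X (x - y)
      have d2 := grp7_degree_dz X y
      have d3 := grp7_degree_dz X x
      have d12 : Divisor.degree (((FO.up (AxR X (x - y)) : Divisor Qb X.F) - X.nInf (gen X)) +
            ((FO.up (AxR X y) : Divisor Qb X.F) - X.nInf (gen X))) = 0 := by
        rw [map_add, d1, d2, add_zero]
      apply grp7_mem_principal X (by rw [map_sub, d12, d3, sub_zero])
      rw [cls_sub d12 d3, cls_add d1 d2, AxR_cls, AxR_cls, AxR_cls]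
      push_cast
      abel)
  exact ⟨⟨c, hc⟩, ⟨c', hc'⟩, h⟩

theorem grp7_inj (K : ℕ) (f f' : FnT X K) (y y' : X.Gam) (G : Place Qb X.F →₀ ℕ)
    (h : DvN X (K * n0 X) f.1 = AxR X y + G) (h' : DvN X (K * n0 X) f'.1 = AxR X y' + G) :
    y = y' := by
  have hp := principal_of_DvN X (K * n0 X) f.2 f'.2 (AxR X y) (AxR X y') G h h'
  have d1 := grp7_degree_dz X y
  have d2 := grp7_degree_dz X y'
  have e : (FO.up (AxR X y) : Divisor Qb X.F) - FO.up (AxR X y') =
      ((FO.up (AxR X y) : Divisor Qb X.F) - X.nInf (gen X)) -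
        ((FO.up (AxR X y') : Divisor Qb X.F) - X.nInf (gen X)) := by abel
  rw [e] at hp
  have h0 := grp7_cls_of_principal X (by rw [map_sub, d1, d2, sub_zero]) hp
  rw [cls_sub d1 d2, AxR_cls, AxR_cls, sub_eq_zero] at h0
  exact Subtype.ext h0

theorem grp7_up_apply (A : Place Qb X.F →₀ ℕ) (P : Place Qb X.F) :
    (FO.up A : Divisor Qb X.F) P = (A P : ℤ) := by
  unfold FO.up
  rw [Finsupp.mapRange_apply]

theorem grp7_smul_nInf (n : ℕ) (σ : GQ) : X.act σ • X.nInf n = X.nInf n := by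
  unfold RatCurve.nInf
  rw [SemilinearAut.smul_single, X.inf_fixed]

theorem grp7_siegel_aux (hS : CSiegel) (n : ℕ) (hn : creg X + 2 * gen X + 1 ≤ n) :
    ∃ C : ℝ, ∀ y : X.Gam, ∃ (f : X.F) (G : Place Qb X.F →₀ ℕ), (f ≠ 0 ∧ f ∈ X.V n) ∧
      (∀ σ : GQ, X.act σ • (FO.up G : Divisor Qb X.F) = FO.up G) ∧
      DvN X n f = AxR X y + G ∧
      (((n : ℕ) : ℝ) - 2 * (gen X : ℝ) + 1) * (𝔥.ht (prj X n f) - 𝔥.ht (prj X n 1)) ≤
          hhN X 𝔥 n (FO.up (AxR X y)) + C := by
  obtain ⟨C, hC⟩ := siegel_abs 𝔥 hS (X.dimV n)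
  refine ⟨C, fun y => ?_⟩
  have hWV : X.W n (FO.up (AxR X y)) ≤ X.V n := W_le_V X n (up_nonneg X _)
  have hdeg : Divisor.degree (X.nInf n - FO.up (AxR X y)) = (n : ℤ) - gen X := by
    rw [map_sub, grp7_degree_nInf, degree_up, AxR_degree]
  have hfr : (Module.finrank Qb (X.W n (FO.up (AxR X y))) : ℤ) = (n : ℤ) - 2 * gen X + 1 := by
    have h1 : (Module.finrank Qb (X.W n (FO.up (AxR X y))) : ℤ) =
        Divisor.degree (X.nInf n - FO.up (AxR X y)) + 1 - gen X :=
      isReg_creg X (X.nInf n - FO.up (AxR X y)) (by rw [hdeg]; omega)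
    rw [h1, hdeg]
    ring
  have hfrco := finrank_co X n hWV
  have hne : co X n (X.W n (FO.up (AxR X y))) ≠ ⊥ := by
    intro h0
    rw [h0, finrank_bot] at hfrco
    rw [← hfrco] at hfr
    push_cast at hfr
    omega
  obtain ⟨t, ht0, htW, hineq⟩ := hC _ hne
    (fun σ x hx => co_W_stable X n (up_nonneg X _) (AxR_stable X y) σ x hx)
  obtain ⟨f, hfW, hft⟩ := Submodule.mem_map.mp htW
  have hfV : f ∈ X.V n := hWV hfW
  have hf0 : f ≠ 0 := by
    rintro rfl
    rw [map_zero] at hft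
    apply ht0
    funext i
    have := congrFun hft i
    simpa using this.symm
  have hfinc : f = inc X n (fun i => algebraMap ℚ Qb (t i)) := by
    rw [← hft, inc_prj X n hfV]
  have hrat : X.IsRat f := by
    rw [hfinc]
    exact isRat_inc X n t
  have hup := up_DvN X n hf0 hfV
  have hle : AxR X y ≤ DvN X n f := by
    intro P
    have h1 := (mem_L_iff_divOf hf0).mp hfW P
    have h2 := congrArg (fun D : Divisor Qb X.F => D P) hup
    simp only [Finsupp.add_apply, Finsupp.sub_apply, Finsupp.zero_apply, grp7_up_apply,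
      divOf_apply] at h1 h2
    omega
  refine ⟨f, DvN X n f - AxR X y, ⟨hf0, hfV⟩, fun σ => ?_, (add_tsub_cancel_of_le hle).symm, ?_⟩
  · have hG : (FO.up (DvN X n f - AxR X y) : Divisor Qb X.F) =
        divOf Qb f + X.nInf n - FO.up (AxR X y) := by
      rw [← hup, eq_sub_iff_add_eq, ← up_add, tsub_add_cancel_of_le hle]
    rw [hG, smul_sub, smul_add, smul_divOf, hrat σ, grp7_smul_nInf, AxR_stable]
  · have hr : ((Module.finrank Qb (co X n (X.W n (FO.up (AxR X y)))) : ℕ) : ℝ) =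
        ((n : ℕ) : ℝ) - 2 * (gen X : ℝ) + 1 := by
      rw [hfrco]
      exact_mod_cast hfr
    rw [hr] at hineq
    rw [hft]
    have h1 : 0 ≤ 𝔥.ht (prj X n 1) := 𝔥.nonneg _
    have h2 : (0 : ℝ) ≤ ((n : ℕ) : ℝ) - 2 * (gen X : ℝ) + 1 := by
      rw [← hr]
      positivity
    unfold hhN
    nlinarith

theorem grp7_siegel (hS : CSiegel) : ∃ K0 : ℕ, ∀ K ≥ K0, ∃ C : ℝ, ∀ y : X.Gam,
    ∃ (f : FnT X K) (G : Place Qb X.F →₀ ℕ),
      (∀ σ : GQ, X.act σ • (FO.up G : Divisor Qb X.F) = FO.up G) ∧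
      DvN X (K * n0 X) f.1 = AxR X y + G ∧
      (((K * n0 X : ℕ) : ℝ) - 2 * (gen X : ℝ) + 1) *
        (𝔥.ht (prj X (K * n0 X) f.1) - 𝔥.ht (prj X (K * n0 X) 1)) ≤
          hhN X 𝔥 (K * n0 X) (FO.up (AxR X y)) + C := by
  refine ⟨creg X + 2 * gen X + 1, fun K hK => ?_⟩
  have hn0 : 1 ≤ n0 X := by unfold n0; omega
  have hn : creg X + 2 * gen X + 1 ≤ K * n0 X := by nlinarith
  obtain ⟨C, hC⟩ := grp7_siegel_aux X 𝔥 hS (K * n0 X) hn
  refine ⟨C, fun y => ?_⟩
  obtain ⟨f, G, hf, h1, h2, h3⟩ := hC y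
  exact ⟨⟨f, hf⟩, G, h1, h2, h3⟩

end Fermat.Agent.S17.HN
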