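import Fermat.Agent.S17.HN.Geo.Co
import Fermat.Agent.S17.FFK.Red
import Fermat.Agent.S17.FFK.HP
import Fermat.Agent.S17.WM.Stable

/-! # HN-GRP5: representatives of classes (proofs of `exists_Ax`, `exists_rel`, `principal_of_DvN`
of `Grp/Gal.lean`, with primed names) -/

set_option autoImplicit false

namespace Fermat.Agent.S17.HN

open AlgebraicCurve Fermat.Agent.S24.FF Fermat.Agent.S27 Fermat.Agent.GAL.FF Fermat.Agent.S17.FFK

variable (X : RatCurve)

theorem Gal5_up_injective {P : Type} : Function.Injective (FO.up : (P →₀ ℕ) → (P →₀ ℤ)) :=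
  Finsupp.mapRange_injective _ rfl Nat.cast_injective

theorem Gal5_up_toNat {P : Type} {A : P →₀ ℤ} (hA : 0 ≤ A) :
    FO.up (A.mapRange Int.toNat rfl) = A := by
  ext v
  have := hA v
  simp only [FO.up, Finsupp.mapRange_apply, Finsupp.zero_apply] at this ⊢
  omega

theorem Gal5_smul_nInf (σ : GQ) (n : ℕ) : X.act σ • X.nInf n = X.nInf n := by
  rw [RatCurve.nInf, SemilinearAut.smul_single, X.inf_fixed]

theorem Gal5_degree_nInf (n : ℕ) : Divisor.degree (X.nInf n) = n := by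
  rw [RatCurve.nInf, degree_single_one]

theorem Gal5_principal_of_cls_eq {D D' : Divisor Qb X.F} (h : Divisor.degree D = 0)
    (h' : Divisor.degree D' = 0) (hc : cls D = cls D') :
    D - D' ∈ Divisor.principal (K := Qb) (F := X.F) := by
  obtain ⟨f, hf, hv⟩ := (cls_eq_iff h h').1 hc
  exact ⟨f, hf, fun v => by rw [Finsupp.sub_apply, hv v]⟩

theorem Gal5_cls_eq_of_principal {D D' : Divisor Qb X.F} (h : Divisor.degree D = 0)
    (h' : Divisor.degree D' = 0) (hp : D - D' ∈ Divisor.principal (K := Qb) (F := X.F)) :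
    cls D = cls D' := by
  obtain ⟨f, hf, hv⟩ := hp
  exact (cls_eq_iff h h').2 ⟨f, hf, fun v => by rw [← hv v, Finsupp.sub_apply]⟩

/-- **GRP5a.** Galois stable effective representative of degree `g` (FFK/Red or WM/Stable). -/
theorem exists_Ax' (x : X.Gam) : ∃ A : Place Qb X.F →₀ ℕ, A.degree = gen X ∧
    (∀ σ : GQ, X.act σ • (FO.up A : Divisor Qb X.F) = FO.up A) ∧
    cls ((FO.up A : Divisor Qb X.F) - X.nInf (gen X)) = (x : Pic0 Qb X.F) := by
  obtain ⟨D₀, hD₀, hx⟩ := cls_surjective (x : Pic0 Qb X.F)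
  set D : Divisor Qb X.F := D₀ + X.nInf (gen X) with hDdef
  have hD : Divisor.degree D = genusFF Qb X.F := by
    rw [hDdef, map_add, hD₀, Gal5_degree_nInf, zero_add]; rfl
  obtain ⟨A, ⟨⟨hA0, hAD⟩, hmax⟩, huniq⟩ := existsUnique_reduced X.inf D hD
  have hdegA : Divisor.degree A = gen X := by rw [red_degree_eq hAD, hD]; rfl
  have hstab : ∀ σ : GQ, X.act σ • A = A := by
    intro σ
    apply huniq
    refine ⟨⟨?_, ?_⟩, ?_⟩
    · intro w
      rw [SemilinearAut.divisor_smul_apply]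
      exact hA0 _
    · have h1 : X.act σ • A - X.act σ • D ∈ Divisor.principal (K := Qb) (F := X.F) := by
        rw [← smul_sub]
        exact SemilinearAut.smul_mem_principal _ hAD
      have h2 : X.act σ • D - D ∈ Divisor.principal (K := Qb) (F := X.F) := by
        have h3 : X.act σ • D - D = X.act σ • D₀ - D₀ := by
          rw [hDdef, smul_add, Gal5_smul_nInf]; abel
        rw [h3]
        apply Gal5_principal_of_cls_eq X (by rw [SemilinearAut.degree_smul, hD₀]) hD₀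
        rw [← WM.smul_cls, hx]
        exact x.2 σ
      have := add_mem h1 h2
      rwa [sub_add_sub_cancel] at this
    · intro A' h1 h2
      have h3 : (X.act σ • A) X.inf = A X.inf := by
        conv_lhs => rw [← X.inf_fixed σ]
        exact SemilinearAut.divisor_smul_apply_smul _ _ _
      rw [h3]
      exact hmax A' h1 h2
  refine ⟨A.mapRange Int.toNat rfl, ?_, ?_, ?_⟩
  · have h1 := degree_up X (A.mapRange Int.toNat rfl)
    rw [Gal5_up_toNat hA0, hdegA] at h1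
    exact_mod_cast h1.symm
  · rw [Gal5_up_toNat hA0]
    exact hstab
  · rw [Gal5_up_toNat hA0, ← hx]
    apply Gal5_cls_eq_of_principal X (by rw [map_sub, hdegA, Gal5_degree_nInf, sub_self]) hD₀
    have h1 : A - X.nInf (gen X) - D₀ = A - D := by rw [hDdef]; abel
    rw [h1]
    exact hAD

/-- **GRP5b.** linearly equivalent effective divisors differ by `D_c - D_c'`, `c, c' ∈ V m`. -/
theorem exists_rel' (m d : ℕ) (hm : d + gen X ≤ m) (A₁ A₂ : Place Qb X.F →₀ ℕ) (h₁ : A₁.degree = d)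
    (h₂ : A₂.degree = d)
    (h : (FO.up A₁ : Divisor Qb X.F) - FO.up A₂ ∈ Divisor.principal (K := Qb) (F := X.F)) :
    ∃ c c' : X.F, (c ≠ 0 ∧ c ∈ X.V m) ∧ (c' ≠ 0 ∧ c' ∈ X.V m) ∧
      A₁ + DvN X m c' = A₂ + DvN X m c := by
  obtain ⟨u, hu, hdiv⟩ := red_mem_principal_iff.mp h
  have hAB : (FO.up A₁ : Divisor Qb X.F) = FO.up A₂ + divOf Qb u := by
    rw [← hdiv]; abel
  have hE : Divisor.degree (FO.up A₂ : Divisor Qb X.F) + genusFF Qb X.F
      ≤ Divisor.degree (X.nInf m) := by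
    rw [degree_up, Gal5_degree_nInf, h₂]
    have : d + genusFF Qb X.F ≤ m := hm
    exact_mod_cast this
  obtain ⟨c, hc, c', hc', hc0, hc'0, -, -, hrel⟩ :=
    FFK.exists_rel (up_nonneg X A₁) (up_nonneg X A₂) hu hAB hE
  refine ⟨c, c', ⟨hc0, hc⟩, ⟨hc'0, hc'⟩, ?_⟩
  apply Gal5_up_injective
  rw [up_add, up_add, up_DvN X m hc'0 hc', up_DvN X m hc0 hc]
  exact hrel

/-- **GRP5c.** -/
theorem principal_of_DvN' (m : ℕ) {c c' : X.F} (hc : c ≠ 0 ∧ c ∈ X.V m)
    (hc' : c' ≠ 0 ∧ c' ∈ X.V m)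
    (A₁ A₂ G : Place Qb X.F →₀ ℕ) (h₁ : DvN X m c = A₁ + G) (h₂ : DvN X m c' = A₂ + G) :
    (FO.up A₁ : Divisor Qb X.F) - FO.up A₂ ∈ Divisor.principal (K := Qb) (F := X.F) := by
  have e₁ := up_DvN X m hc.1 hc.2
  have e₂ := up_DvN X m hc'.1 hc'.2
  rw [h₁, up_add] at e₁
  rw [h₂, up_add] at e₂
  refine red_mem_principal_iff.mpr ⟨c * c'⁻¹, mul_ne_zero hc.1 (inv_ne_zero hc'.1), ?_⟩
  rw [divOf_mul hc.1 (inv_ne_zero hc'.1), divOf_inv]
  have h3 : (FO.up A₁ : Divisor Qb X.F) - FO.up A₂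
      = (FO.up A₁ + FO.up G) - (FO.up A₂ + FO.up G) := by abel
  rw [h3, e₁, e₂]
  abel

end Fermat.Agent.S17.HN
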