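import Fermat.Agent.S17.HN.Geo.Ax
import Fermat.Agent.S17.HN.Grp.Gal5

/-! # HN-GRP4/5: Galois equivariance of the coordinates; representatives of classes -/

set_option autoImplicit false

namespace Fermat.Agent.S17.HN

open AlgebraicCurve Fermat.Agent.S24.FF Fermat.Agent.S27 Fermat.Agent.GAL.FF Fermat.Agent.S17.FFK

variable (X : RatCurve)

/-! ### auxiliary lemmas -/

theorem Gal_ord_smul' (g : SemilinearAut Qb X.F) (w : Place Qb X.F) (f : X.F) :
    w.ord (g • f) = (g⁻¹ • w).ord f := by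
  have h := SemilinearAut.ord_smul g (g⁻¹ • w) f
  rwa [smul_inv_smul] at h

theorem Gal_smul_mem_L (g : SemilinearAut Qb X.F) {D : Divisor Qb X.F} {f : X.F}
    (hf : f ∈ riemannRochSpace D) : g • f ∈ riemannRochSpace (g • D) := by
  rw [mem_riemannRochSpace_iff] at hf ⊢
  intro v
  rcases hf (g⁻¹ • v) with h | h
  · left; rw [h, smul_zero]
  · right
    rw [SemilinearAut.divisor_smul_apply, Gal_ord_smul']
    exact h

theorem Gal_smul_nInf (n : ℕ) (σ : GQ) : X.act σ • X.nInf n = X.nInf n := by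
  unfold RatCurve.nInf
  rw [SemilinearAut.smul_single, X.inf_fixed]

theorem Gal_smul_mem_V (n : ℕ) (σ : GQ) {f : X.F} (hf : f ∈ X.V n) : X.act σ • f ∈ X.V n := by
  have h := Gal_smul_mem_L X (X.act σ) hf
  rwa [Gal_smul_nInf] at h

/-- there is a basis of `V n` consisting of rational functions -/
theorem Gal_exists_basis (n : ℕ) :
    ∃ b : Module.Basis (Fin (X.dimV n)) Qb (X.V n), ∀ i, X.IsRat (b i : X.F) := by
  set s : Set (X.V n) := {v | X.IsRat (v : X.F)} with hs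
  have hspan : Submodule.span Qb s = ⊤ := by
    rw [eq_top_iff]
    rintro ⟨v, hv⟩ -
    have h1 := X.descent (X.V n) inferInstance (fun σ f hf => Gal_smul_mem_V X n σ hf) hv
    have h2 : {f | f ∈ X.V n ∧ ∀ σ : GQ, X.act σ • f = f} = (X.V n).subtype '' s := by
      ext f
      constructor
      · rintro ⟨hf, hr⟩
        exact ⟨⟨f, hf⟩, hr, rfl⟩
      · rintro ⟨⟨f', hf'⟩, hr, rfl⟩
        exact ⟨hf', hr⟩
    rw [h2, Submodule.span_image] at h1
    obtain ⟨v', hv', hvv⟩ := h1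
    have h3 : v' = ⟨v, hv⟩ := Subtype.ext hvv
    rwa [h3] at hv'
  obtain ⟨f, hf, hfspan, hfli⟩ := Submodule.exists_fun_fin_finrank_span_eq Qb s
  have hd : Module.finrank Qb (Submodule.span Qb s) = X.dimV n := by
    rw [hspan, finrank_top]; rfl
  refine ⟨(Module.Basis.mk hfli (by rw [hfspan, hspan])).reindex (finCongr hd), fun i => ?_⟩
  rw [Module.Basis.reindex_apply, Module.Basis.mk_apply]
  exact hf _

/-- **GRP4a.** from `X.descent` -/
theorem basV_isRat (n : ℕ) (i : Fin (X.dimV n)) : X.IsRat (basV X n i : X.F) := by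
  have h := Gal_exists_basis X n
  have e : basV X n = h.choose := dif_pos h
  rw [e]
  exact h.choose_spec i

theorem smul_mem_W (n : ℕ) (σ : GQ) {A : Divisor Qb X.F} (hA : X.act σ • A = A) {f : X.F}
    (hf : f ∈ X.W n A) : X.act σ • f ∈ X.W n A := by
  have h := Gal_smul_mem_L X (X.act σ) hf
  rwa [smul_sub, Gal_smul_nInf, hA] at h

theorem Gal_inc_apply (n : ℕ) (x : Fin (X.dimV n) → Qb) :
    inc X n x = ∑ i, x i • (basV X n i : X.F) := by
  show (((basV X n).equivFun.symm x : X.V n) : X.F) = _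
  rw [Module.Basis.equivFun_symm_apply, Submodule.coe_sum]
  rfl

theorem Gal_smul_inc (n : ℕ) (σ : GQ) (x : Fin (X.dimV n) → Qb) :
    X.act σ • inc X n x = inc X n (fun i => σ (x i)) := by
  rw [Gal_inc_apply, Gal_inc_apply, Finset.smul_sum]
  refine Finset.sum_congr rfl fun i _ => ?_
  rw [Algebra.smul_def, Algebra.smul_def, smul_mul', SemilinearAut.smul_algebraMap,
    X.baseAut_act σ, basV_isRat X n i σ]
  rfl

/-- **GRP4b.** -/
theorem prj_smul (n : ℕ) (σ : GQ) {f : X.F} (hf : f ∈ X.V n) :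
    prj X n (X.act σ • f) = fun i => σ (prj X n f i) := by
  conv_lhs => rw [← inc_prj X n hf]
  rw [Gal_smul_inc, prj_inc]

/-- **GRP4c.** the coordinate subspace of `W n A` is Galois stable if `A` is. -/
theorem co_W_stable (n : ℕ) {A : Divisor Qb X.F} (hA0 : 0 ≤ A) (hA : ∀ σ : GQ, X.act σ • A = A)
    (σ : GQ) (x : Fin (X.dimV n) → Qb) (hx : x ∈ co X n (X.W n A)) :
    (fun i => σ (x i)) ∈ co X n (X.W n A) := by
  obtain ⟨f, hf, rfl⟩ := hx
  exact ⟨X.act σ • f, smul_mem_W X n σ (hA σ) hf, prj_smul X n σ (W_le_V X n hA0 hf)⟩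

/-- **GRP4d.** a function with rational coordinates is rational, its divisor is Galois stable. -/
theorem isRat_inc (n : ℕ) (t : Fin (X.dimV n) → ℚ) :
    X.IsRat (inc X n (fun i => algebraMap ℚ Qb (t i))) := by
  intro σ
  rw [Gal_smul_inc]
  congr 1
  funext i
  exact σ.commutes (t i)

theorem smul_divOf (σ : GQ) (f : X.F) : X.act σ • divOf Qb f = divOf Qb (X.act σ • f) := by
  ext w
  rw [SemilinearAut.divisor_smul_apply, divOf_apply, divOf_apply, Gal_ord_smul']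

/-- **GRP5a.** Galois stable effective representative of degree `g` (FFK/Red or WM/Stable). -/
theorem exists_Ax (x : X.Gam) : ∃ A : Place Qb X.F →₀ ℕ, A.degree = gen X ∧
    (∀ σ : GQ, X.act σ • (FO.up A : Divisor Qb X.F) = FO.up A) ∧
    cls ((FO.up A : Divisor Qb X.F) - X.nInf (gen X)) = (x : Pic0 Qb X.F) :=
  exists_Ax' X x

/-- **GRP5b.** linearly equivalent effective divisors differ by `D_c - D_c'`, `c, c' ∈ V m`. -/
theorem exists_rel (m d : ℕ) (hm : d + gen X ≤ m) (A₁ A₂ : Place Qb X.F →₀ ℕ) (h₁ : A₁.degree = d)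
    (h₂ : A₂.degree = d)
    (h : (FO.up A₁ : Divisor Qb X.F) - FO.up A₂ ∈ Divisor.principal (K := Qb) (F := X.F)) :
    ∃ c c' : X.F, (c ≠ 0 ∧ c ∈ X.V m) ∧ (c' ≠ 0 ∧ c' ∈ X.V m) ∧
      A₁ + DvN X m c' = A₂ + DvN X m c :=
  exists_rel' X m d hm A₁ A₂ h₁ h₂ h

/-- **GRP5c.** -/
theorem principal_of_DvN (m : ℕ) {c c' : X.F} (hc : c ≠ 0 ∧ c ∈ X.V m) (hc' : c' ≠ 0 ∧ c' ∈ X.V m)
    (A₁ A₂ G : Place Qb X.F →₀ ℕ) (h₁ : DvN X m c = A₁ + G) (h₂ : DvN X m c' = A₂ + G) :
    (FO.up A₁ : Divisor Qb X.F) - FO.up A₂ ∈ Divisor.principal (K := Qb) (F := X.F) :=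
  principal_of_DvN' X m hc hc' A₁ A₂ G h₁ h₂

end Fermat.Agent.S17.HN
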