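import Fermat.Agent.S17.HN.MG1
import Fermat.Agent.S17.HN.US
import Fermat.Agent.S17.HN.Geo.Defs
import Fermat.Agent.S27.A.Api

/-! # HN-GRP6a: `h(1 : x(P)) ≤ hh_{n0}(P) + C` -/

set_option autoImplicit false

namespace Fermat.Agent.S17.HN

open AlgebraicCurve Fermat.Agent.S24.FF Fermat.Agent.S27 Fermat.Agent.GAL.FF Fermat.Agent.S17.FFK

variable (X : RatCurve) (𝔥 : GHt)

/-! ### coordinates -/

theorem N1_prjV_apply (n : ℕ) {f : X.F} (hf : f ∈ X.V n) : prjV X n f = ⟨f, hf⟩ := by
  have h := Classical.choose_spec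
    ((X.V n).subtype.exists_leftInverse_of_injective (Submodule.ker_subtype _))
  exact LinearMap.congr_fun h ⟨f, hf⟩

theorem N1_inc_apply (n : ℕ) (y : Fin (X.dimV n) → Qb) :
    inc X n y = ∑ i, y i • (basV X n i : X.F) := by
  unfold inc
  rw [LinearMap.comp_apply, LinearEquiv.coe_coe, Module.Basis.equivFun_symm_apply]
  simp

theorem N1_inc_mem (n : ℕ) (y : Fin (X.dimV n) → Qb) : inc X n y ∈ X.V n := by
  unfold inc
  rw [LinearMap.comp_apply]
  exact Submodule.coe_mem _

theorem N1_prj_inc (n : ℕ) (y : Fin (X.dimV n) → Qb) : prj X n (inc X n y) = y := by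
  have h := Classical.choose_spec
    ((X.V n).subtype.exists_leftInverse_of_injective (Submodule.ker_subtype _))
  have h1 : prjV X n (inc X n y) = (basV X n).equivFun.symm y :=
    LinearMap.congr_fun h ((basV X n).equivFun.symm y)
  unfold prj
  rw [LinearMap.comp_apply, h1, LinearEquiv.coe_coe, LinearEquiv.apply_symm_apply]

theorem N1_inc_prj (n : ℕ) {f : X.F} (hf : f ∈ X.V n) : inc X n (prj X n f) = f := by
  unfold prj inc
  rw [LinearMap.comp_apply, LinearMap.comp_apply, N1_prjV_apply X n hf]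
  simp

/-! ### regularity and values -/

theorem N1_ord_nonneg (n : ℕ) {f : X.F} (hf : f ∈ X.V n) {P : Place Qb X.F} (hP : P ≠ X.inf) :
    0 ≤ P.ord f := by
  classical
  rcases (mem_riemannRochSpace_iff.1 hf) P with h | h
  · rw [h, Place.ord_zero]
  · rwa [RatCurve.nInf, Finsupp.single_apply, if_neg (Ne.symm hP), neg_zero] at h

theorem N1_val_inc (n : ℕ) (y : Fin (X.dimV n) → Qb) {P : Place Qb X.F} (hP : P ≠ X.inf) :
    val P (inc X n y) = ∑ i, y i * val P (basV X n i : X.F) := by
  have hb : ∀ i, 0 ≤ P.ord (basV X n i : X.F) := fun i =>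
    N1_ord_nonneg X n (Submodule.coe_mem _) hP
  rw [N1_inc_apply, val_sum P _ _ fun i _ => ?_]
  · exact Finset.sum_congr rfl fun i _ => val_smul P _ (hb i)
  · exact N1_ord_nonneg X n ((X.V n).smul_mem _ (Submodule.coe_mem _)) hP

theorem N1_one_mem (n : ℕ) : (1 : X.F) ∈ X.V n := by
  classical
  refine mem_riemannRochSpace_iff.2 fun v => Or.inr ?_
  rw [Place.ord_one, RatCurve.nInf, Finsupp.single_apply]
  split_ifs <;> simp

theorem N1_x_mem {n : ℕ} (hn : X.m0 ≤ n) : X.x ∈ X.V n := by
  classical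
  refine mem_riemannRochSpace_iff.2 fun v => Or.inr ?_
  rw [RatCurve.nInf, Finsupp.single_apply]
  split_ifs with h
  · subst h
    have h1 := X.x_pole
    unfold RatCurve.m0 at hn
    omega
  · rw [neg_zero]
    exact X.x_reg v (Ne.symm h)

theorem N1_mem_W_iff (n : ℕ) {f : X.F} (hf : f ∈ X.V n) {P : Place Qb X.F} (hP : P ≠ X.inf) :
    f ∈ X.W n (Finsupp.single P 1) ↔ val P f = 0 := by
  classical
  rw [val_eq_zero_iff P (N1_ord_nonneg X n hf hP)]
  constructor
  · intro h
    rcases (mem_riemannRochSpace_iff.1 h) P with h | h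
    · exact Or.inl h
    · right
      rw [Finsupp.sub_apply, RatCurve.nInf, Finsupp.single_apply, if_neg (Ne.symm hP),
        Finsupp.single_eq_same] at h
      omega
  · intro h
    refine mem_riemannRochSpace_iff.2 fun v => ?_
    rcases h with h | h
    · exact Or.inl h
    · rcases (mem_riemannRochSpace_iff.1 hf) v with h' | h'
      · exact Or.inl h'
      · right
        rw [Finsupp.sub_apply]
        by_cases hv : v = P
        · subst hv
          rw [RatCurve.nInf, Finsupp.single_apply, if_neg (Ne.symm hP), Finsupp.single_eq_same]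
          omega
        · rw [Finsupp.single_apply, if_neg (Ne.symm hv), sub_zero]
          exact h'

theorem N1_W_le_V (n : ℕ) (P : Place Qb X.F) : X.W n (Finsupp.single P 1) ≤ X.V n := by
  classical
  intro f hf
  refine mem_riemannRochSpace_iff.2 fun v => ?_
  rcases (mem_riemannRochSpace_iff.1 hf) v with h | h
  · exact Or.inl h
  · right
    rw [Finsupp.sub_apply] at h
    have : (0 : ℤ) ≤ Finsupp.single P (1 : ℤ) v := by
      rw [Finsupp.single_apply]
      split_ifs <;> simp
    omega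

/-- the hyperplane `W n P` in coordinates. -/
theorem N1_co_W (n : ℕ) {P : Place Qb X.F} (hP : P ≠ X.inf) :
    co X n (X.W n (Finsupp.single P 1)) =
      LinearMap.ker (Fintype.linearCombination Qb (fun i => val P (basV X n i : X.F)) :
        (Fin (X.dimV n) → Qb) →ₗ[Qb] Qb) := by
  ext y
  rw [LinearMap.mem_ker, Fintype.linearCombination_apply]
  simp only [smul_eq_mul]
  rw [← N1_val_inc X n y hP, ← N1_mem_W_iff X n (N1_inc_mem X n y) hP]
  unfold co
  rw [Submodule.mem_map]
  constructor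
  · rintro ⟨f, hf, rfl⟩
    rwa [N1_inc_prj X n (N1_W_le_V X n P hf)]
  · intro h
    exact ⟨_, h, N1_prj_inc X n y⟩

/-! ### the local estimate -/

theorem N1_abv_sum_le {d : ℕ} (a φ : Fin d → Qb) (S : Multiset Qb) (hS : ∀ i, a i ∈ S)
    (w : AbsoluteValue Qb ℝ) :
    w (∑ i, a i * φ i) ≤ locC (max 1 (d : ℝ)) S w * vnorm w φ := by
  have h1 : ∀ i ∈ Finset.univ, w (a i * φ i) ≤ locC 1 S w * vnorm w φ := by
    intro i _
    rw [map_mul]
    exact mul_le_mul (US_le_locC le_rfl S w (hS i)) (le_vnorm w φ i) (w.nonneg _)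
      (le_trans zero_le_one (US_one_le_locC le_rfl S w))
  have h2 := abv_sum_le w Finset.univ (fun i => a i * φ i)
    (mul_nonneg (le_trans zero_le_one (US_one_le_locC le_rfl S w)) (vnorm_nonneg w φ)) h1
  rw [Finset.card_univ, Fintype.card_fin, ← mul_assoc, ← US_locC_mul, mul_one, zero_add] at h2
  exact h2

/-- **GRP6a.** `h(1 : x(P)) ≤ hh_{n0}(P) + C` (`HYP_global` + `transfer`). -/
theorem ht_val_le' : ∃ C : ℝ, ∀ P : Place Qb X.F, P ≠ X.inf →
    𝔥.ht ![1, val P X.x] ≤ hhN X 𝔥 (n0 X) (Finsupp.single P 1) + C := by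
  set n := n0 X with hn
  set a := prj X n 1 with ha
  set b := prj X n X.x with hb
  have hx : X.x ∈ X.V n := N1_x_mem X (by rw [hn]; unfold n0; omega)
  set S : Multiset Qb := (Finset.univ.val.map a) + (Finset.univ.val.map b) with hS
  obtain ⟨c, hc⟩ := 𝔥.transfer (max 1 (X.dimV n : ℝ)) S
  obtain ⟨C, hC⟩ := HYP_global' 𝔥 (X.dimV n)
  refine ⟨C + c, fun P hP => ?_⟩
  set φ : Fin (X.dimV n) → Qb := fun i => val P (basV X n i : X.F) with hφ
  have e1 : (1 : Qb) = ∑ i, a i * φ i := by
    rw [← N1_val_inc X n a hP, ha, N1_inc_prj X n (N1_one_mem X n), val_one]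
  have e2 : val P X.x = ∑ i, b i * φ i := by
    rw [← N1_val_inc X n b hP, hb, N1_inc_prj X n hx]
  have hφ0 : φ ≠ 0 := by
    intro h
    rw [h] at e1
    simp at e1
  have hv0 : (![1, val P X.x] : Fin 2 → Qb) ≠ 0 := by
    intro h
    have := congrFun h 0
    simp at this
  have haS : ∀ i, a i ∈ S := fun i =>
    Multiset.mem_add.2 (Or.inl (Multiset.mem_map.2 ⟨i, Finset.mem_univ_val i, rfl⟩))
  have hbS : ∀ i, b i ∈ S := fun i =>
    Multiset.mem_add.2 (Or.inr (Multiset.mem_map.2 ⟨i, Finset.mem_univ_val i, rfl⟩))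
  have key := hc [{ ι := Fin 2, x := ![1, val P X.x], ne := hv0 }]
    [{ ι := Fin (X.dimV n), x := φ, ne := hφ0 }] (fun w => by
      simp only [List.map_cons, List.map_nil, List.prod_cons, List.prod_nil, mul_one]
      refine vnorm_le w _ (mul_nonneg (le_trans zero_le_one
        (US_one_le_locC (le_max_left _ _) S w)) (vnorm_nonneg w φ)) fun i => ?_
      fin_cases i
      · show w 1 ≤ _
        rw [e1]
        exact N1_abv_sum_le a φ S haS w
      · show w (val P X.x) ≤ _
        rw [e2]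
        exact N1_abv_sum_le b φ S hbS w)
  simp only [List.map_cons, List.map_nil, List.sum_cons, List.sum_nil, add_zero] at key
  have h2 := hC φ hφ0
  rw [← N1_co_W X n hP] at h2
  have h3 := (abs_le.1 h2).1
  unfold hhN
  linarith

end Fermat.Agent.S17.HN
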