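import Fermat.Agent.S17.HN.Grp.Rat
import Fermat.Agent.S17.GL.CNC

/-! # HN-GRP6b: height of the norm polynomial `∏ (T - x(P))^{A(P)}` (easy direction of Gauss/Mahler) -/

set_option autoImplicit false

namespace Fermat.Agent.S17.HN

open AlgebraicCurve Fermat.Agent.S24.FF Fermat.Agent.S27 Fermat.Agent.GAL.FF Fermat.Agent.S17.FFK
open Polynomial

section loc

variable {k : Type} [Field k]

open Classical in
/-- `1` at nonarchimedean absolute values, `2` otherwise -/
noncomputable def n2c (w : AbsoluteValue k ℝ) : ℝ := if IsNonarchimedean w then 1 else 2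

theorem n2c_one_le (w : AbsoluteValue k ℝ) : 1 ≤ n2c w := by
  unfold n2c
  split_ifs <;> norm_num

theorem n2c_sub_le (w : AbsoluteValue k ℝ) (u z : k) : w (u - z) ≤ n2c w * max (w u) (w z) := by
  unfold n2c
  split_ifs with h
  · rw [one_mul, sub_eq_add_neg, ← w.map_neg z]
    exact h u (-z)
  · have h1 : w (u - z) ≤ w u + w z := by
      rw [sub_eq_add_neg, ← w.map_neg z]
      exact w.add_le u (-z)
    have h2 := le_max_left (w u) (w z)
    have h3 := le_max_right (w u) (w z)
    linarith

theorem n2_one_le_vnorm (w : AbsoluteValue k ℝ) (a : k) : 1 ≤ vnorm w ![1, a] := by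
  have h := le_ciSup (f := fun i : Fin 2 => w (![1, a] i)) (Set.finite_range _).bddAbove 0
  simp only [Matrix.cons_val_zero, map_one] at h
  exact h

theorem n2_le_vnorm (w : AbsoluteValue k ℝ) (a : k) : w a ≤ vnorm w ![1, a] := by
  have h := le_ciSup (f := fun i : Fin 2 => w (![1, a] i)) (Set.finite_range _).bddAbove 1
  simp only [Matrix.cons_val_one, Matrix.cons_val_fin_one] at h
  exact h

/-- the local inequality -/
theorem n2_coeff_le (w : AbsoluteValue k ℝ) (l : List k) (i : ℕ) :
    w ((l.map fun a => (X - C a : k[X])).prod.coeff i) ≤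
      n2c w ^ l.length * (l.map fun a => vnorm w ![1, a]).prod := by
  induction l generalizing i with
  | nil =>
    simp only [List.map_nil, List.prod_nil, List.length_nil, pow_zero, mul_one, coeff_one]
    split_ifs
    · rw [map_one]
    · rw [map_zero]; exact zero_le_one
  | cons a l ih =>
    set p := (l.map fun a => (X - C a : k[X])).prod with hp
    set B := n2c w ^ l.length * (l.map fun a => vnorm w ![1, a]).prod with hB
    have hB0 : 0 ≤ B := le_trans (w.nonneg _) (ih 0)
    have hc := n2c_one_le w
    have hV1 := n2_one_le_vnorm w a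
    have hVa := n2_le_vnorm w a
    have key : ∀ u y : k, w u ≤ B → w y ≤ B → w (u - a * y) ≤ n2c w * (vnorm w ![1, a] * B) := by
      intro u y hu hy
      refine (n2c_sub_le w u (a * y)).trans ?_
      refine mul_le_mul_of_nonneg_left (max_le ?_ ?_) (by linarith)
      · calc w u ≤ 1 * B := by rw [one_mul]; exact hu
          _ ≤ vnorm w ![1, a] * B := mul_le_mul_of_nonneg_right hV1 hB0
      · rw [map_mul]
        exact mul_le_mul hVa hy (w.nonneg _) (by linarith)
    have hgoal : n2c w ^ (a :: l).length * ((a :: l).map fun a => vnorm w ![1, a]).prod =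
        n2c w * (vnorm w ![1, a] * B) := by
      rw [List.length_cons, List.map_cons, List.prod_cons, hB, pow_succ]
      ring
    rw [hgoal, List.map_cons, List.prod_cons, ← hp, sub_mul, coeff_sub, coeff_C_mul]
    cases i with
    | zero =>
      rw [coeff_X_mul_zero]
      exact key 0 _ (by rw [map_zero]; exact hB0) (ih 0)
    | succ i =>
      rw [coeff_X_mul]
      exact key _ _ (ih i) (ih (i + 1))

/-- a product with multiplicities as a product over a list -/
theorem n2_exists_list {ι : Type*} (s : Finset ι) (n : ι → ℕ) (a : ι → k) :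
    ∃ l : List k, (l.map fun a => (X - C a : k[X])).prod = ∏ P ∈ s, (X - C (a P)) ^ n P ∧
      l.length = ∑ P ∈ s, n P ∧ ∀ g : k → ℝ, (l.map g).sum = ∑ P ∈ s, (n P : ℝ) * g (a P) := by
  classical
  induction s using Finset.induction_on with
  | empty => exact ⟨[], by simp, by simp, fun g => by simp⟩
  | insert P s hP ih =>
    obtain ⟨l, h1, h2, h3⟩ := ih
    refine ⟨List.replicate (n P) (a P) ++ l, ?_, ?_, fun g => ?_⟩
    · rw [List.map_append, List.prod_append, h1, List.map_replicate, List.prod_replicate,
        Finset.prod_insert hP]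
    · rw [List.length_append, List.length_replicate, h2, Finset.sum_insert hP]
    · rw [List.map_append, List.sum_append, h3, List.map_replicate, List.sum_replicate,
        Finset.sum_insert hP, nsmul_eq_mul]

end loc

variable (X : RatCurve) (𝔥 : GHt)

/-- **GRP6b.** height of `∏ (T - x(P))^{A(P)}` (easy direction of Gauss/Mahler; `transfer` + `ht_rat`). -/
theorem polyHt_NA_le' (d : ℕ) : ∃ C : ℝ, ∀ A ∈ X.DD, X.degN A ≤ d →
    polyHt (X.NA A) ≤ A.sum (fun P e => (e : ℝ) * 𝔥.ht ![1, val P X.x]) + C := by
  obtain ⟨c, hc⟩ := 𝔥.transfer (2 ^ d) 0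
  refine ⟨c, fun A hA hd => ?_⟩
  obtain ⟨l, hl1, hl2, hl3⟩ := n2_exists_list A.support (fun P => (A P).toNat)
    (fun P => val P X.x)
  have hNA : X.NA A = (l.map fun a => (Polynomial.X - C a : Qb[X])).prod := hl1.symm
  have hlen : l.length ≤ d := by
    rw [hl2, ← X.cnc_NA_natDegree, X.cnc_NA_natDegree_eq hA]
    exact hd
  have hmon := X.cnc_NA_monic A
  -- the coefficient vector
  set x : Fin ((X.NA A).natDegree + 1) → Qb := fun i => (X.NA A).coeff i with hx
  have hx0 : x ≠ 0 := by
    intro h
    have h1 := congrFun h (Fin.last _)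
    simp only [hx, Fin.val_last, Pi.zero_apply] at h1
    rw [hmon.coeff_natDegree] at h1
    exact one_ne_zero h1
  have hv0 : ∀ a : Qb, (![1, a] : Fin 2 → Qb) ≠ 0 := by
    intro a h
    have h1 := congrFun h 0
    simp at h1
  have h1 := hc [⟨_, x, hx0⟩] (l.map fun a => ⟨Fin 2, ![1, a], hv0 a⟩) (by
    intro w
    simp only [List.map_cons, List.map_nil, List.prod_cons, List.prod_nil, mul_one, List.map_map]
    have h2 : vnorm w x ≤ n2c w ^ l.length * (l.map fun a => vnorm w ![1, a]).prod := by
      refine ciSup_le fun i => ?_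
      simp only [hx, hNA]
      exact n2_coeff_le w l i
    refine h2.trans ?_
    have h3 : 0 ≤ (l.map fun a => vnorm w ![1, a]).prod := by
      refine List.prod_nonneg ?_
      intro y hy
      obtain ⟨a, -, rfl⟩ := List.mem_map.1 hy
      exact zero_le_one.trans (n2_one_le_vnorm w a)
    refine mul_le_mul_of_nonneg_right ?_ h3
    unfold n2c locC
    simp only [Multiset.map_zero, Multiset.prod_zero, mul_one]
    split_ifs
    · rw [one_pow]
    · exact pow_le_pow_right₀ (by norm_num) hlen)
  simp only [List.map_cons, List.map_nil, List.sum_cons, List.sum_nil, add_zero,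
    List.map_map] at h1
  have h4 : (l.map ((fun Y : FVec => 𝔥.ht Y.x) ∘ fun a => (⟨Fin 2, ![1, a], hv0 a⟩ : FVec))).sum =
      A.sum (fun P e => (e : ℝ) * 𝔥.ht ![1, val P X.x]) := by
    have h5 := hl3 (fun a => 𝔥.ht ![1, a])
    rw [Finsupp.sum]
    refine h5.trans (Finset.sum_congr rfl fun P _ => ?_)
    have h6 : (((A P).toNat : ℕ) : ℝ) = ((A P : ℤ) : ℝ) := by
      have := Int.toNat_of_nonneg (hA.1 P)
      exact_mod_cast this
    rw [h6]
  rw [h4] at h1
  refine le_trans (le_of_eq ?_) h1
  -- `polyHt` is the height of the coefficient vector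
  have ht0 : (fun i : Fin ((X.NA A).natDegree + 1) => ratPart ((X.NA A).coeff i)) ≠ 0 := by
    intro h
    have h1 := congrFun h (Fin.last _)
    simp only [Fin.val_last, Pi.zero_apply] at h1
    rw [hmon.coeff_natDegree, cnc_ratPart_one] at h1
    exact one_ne_zero h1
  unfold polyHt
  rw [← 𝔥.ht_rat _ ht0]
  congr 1
  funext i
  exact cnc_algebraMap_ratPart (X.cnc_NA_rat hA i)

end Fermat.Agent.S17.HN
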