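import Fermat.Agent.S17.HN.Geo.Ax
import Fermat.Agent.S17.HN.FO.LinBil

/-! # HN-GRP6c: Northcott for Galois stable effective divisors, from (6a), (6b) and `CNC` -/

set_option autoImplicit false

namespace Fermat.Agent.S17.HN

open AlgebraicCurve Fermat.Agent.S24.FF Fermat.Agent.S27 Fermat.Agent.GAL.FF Fermat.Agent.S17.FFK
open FO.LB

variable (X : RatCurve) (𝔥 : GHt)

theorem northC_H_eq (P : Place Qb X.F) :
    (n0 X : ℝ) * (htAx X 𝔥).H P = hhN X 𝔥 (n0 X) (Finsupp.single P 1) := by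
  have h0 : (n0 X : ℝ) ≠ 0 := by
    have : 0 < n0 X := (htAx X 𝔥).n0_pos
    positivity
  have h1 : (htAx X 𝔥).H P = hhN X 𝔥 (1 * n0 X) (FO.up (FO.pt P)) / (n0 X : ℝ) := rfl
  rw [h1, one_mul, up_pt, mul_div_cancel₀ _ h0]

theorem northC_H_nonneg (P : Place Qb X.F) : 0 ≤ (htAx X 𝔥).H P :=
  div_nonneg ((htAx X 𝔥).hh_nonneg 1 _) (Nat.cast_nonneg _)

theorem northC_up_injective {P : Type} : Function.Injective (FO.up : (P →₀ ℕ) → (P →₀ ℤ)) := by
  intro A B h
  ext p
  have := DFunLike.congr_fun h p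
  rw [up_apply, up_apply] at this
  exact_mod_cast this

theorem northC_degree_up (A : Place Qb X.F →₀ ℕ) :
    Divisor.degree (FO.up A : Divisor Qb X.F) = (A.degree : ℤ) := by
  induction A using Finsupp.induction_linear with
  | zero => rw [up_zero, map_zero, map_zero, Nat.cast_zero]
  | add A B hA hB => rw [up_add, map_add, hA, hB, map_add, Nat.cast_add]
  | single p n => rw [up_single, degree_single_one, Finsupp.degree_single]

theorem northC_lin_mono {P : Type} {φ ψ : P → ℝ} (A : P →₀ ℕ) (h : ∀ p, A p ≠ 0 → φ p ≤ ψ p) :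
    FO.lin φ (FO.up A) ≤ FO.lin ψ (FO.up A) := by
  unfold FO.lin Finsupp.sum
  refine Finset.sum_le_sum fun p hp => ?_
  rw [Finsupp.mem_support_iff, up_apply] at hp
  rw [up_apply]
  refine mul_le_mul_of_nonneg_left (h p ?_) (by positivity)
  intro h0
  apply hp
  rw [h0, Nat.cast_zero]

/-- **GRP6c (Northcott)**, with (6a) and (6b) as hypotheses. -/
theorem northcott_geo_of
    (h6a : ∃ C : ℝ, ∀ P : Place Qb X.F, P ≠ X.inf →
      𝔥.ht ![1, val P X.x] ≤ hhN X 𝔥 (n0 X) (Finsupp.single P 1) + C)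
    (h6b : ∀ d : ℕ, ∃ C : ℝ, ∀ A ∈ X.DD, X.degN A ≤ d →
      polyHt (X.NA A) ≤ A.sum (fun P e => (e : ℝ) * 𝔥.ht ![1, val P X.x]) + C)
    (hN : X.CNC) (d : ℕ) (T : ℝ) :
    {G : Place Qb X.F →₀ ℕ | (∀ σ : GQ, X.act σ • (FO.up G : Divisor Qb X.F) = FO.up G) ∧
      G.degree = d ∧ FO.lin (htAx X 𝔥).H (FO.up G) ≤ T}.Finite := by
  classical
  obtain ⟨C', hC'⟩ := h6a
  obtain ⟨C, hC⟩ := h6b d
  set T' : ℝ := ((n0 X : ℝ) * T + (d : ℝ) * |C'| + C) / (X.m0 : ℝ) with hT'
  have hfin := (hN d T').prod (Set.finite_Iic d)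
  let Φ : (Place Qb X.F →₀ ℕ) → Divisor Qb X.F × ℕ := fun G => (FO.up (G.erase X.inf), G X.inf)
  have hΦ : Function.Injective Φ := by
    intro G G' h
    have h1 : G.erase X.inf = G'.erase X.inf := northC_up_injective (congrArg Prod.fst h)
    have h2 : G X.inf = G' X.inf := congrArg Prod.snd h
    rw [← Finsupp.erase_add_single X.inf G, ← Finsupp.erase_add_single X.inf G', h1, h2]
  refine (hfin.preimage hΦ.injOn).subset ?_
  rintro G ⟨hGs, hGd, hGT⟩
  set G' := G.erase X.inf with hG'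
  set s := G X.inf with hs
  have hsplit : G = G' + Finsupp.single X.inf s := (Finsupp.erase_add_single X.inf G).symm
  have hup : (FO.up G : Divisor Qb X.F) = FO.up G' + Finsupp.single X.inf (s : ℤ) := by
    conv_lhs => rw [hsplit]
    rw [up_add, up_single]
  have hdeg : G'.degree + s = d := by
    rw [← hGd]
    conv_rhs => rw [hsplit]
    rw [map_add, Finsupp.degree_single]
  have hDD : (FO.up G' : Divisor Qb X.F) ∈ X.DD := by
    refine ⟨?_, ?_, ?_⟩
    · rw [Finsupp.le_def]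
      intro p
      rw [up_apply]
      simp
    · rw [up_apply, hG', Finsupp.erase_same, Nat.cast_zero]
    · intro σ
      have h1 := hGs σ
      rw [hup, smul_add, SemilinearAut.smul_single, X.inf_fixed] at h1
      exact add_right_cancel h1
  have hdegN : X.degN (FO.up G') ≤ d := by
    rw [RatCurve.degN, northC_degree_up, Int.toNat_natCast]
    omega
  have h1 := hC _ hDD hdegN
  have h2 : (FO.up G' : Divisor Qb X.F).sum (fun P e => (e : ℝ) * 𝔥.ht ![1, val P X.x])
      ≤ FO.lin (fun P => (n0 X : ℝ) * (htAx X 𝔥).H P + C') (FO.up G') := by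
    refine northC_lin_mono (φ := fun P => 𝔥.ht ![1, val P X.x]) G' fun P hP => ?_
    have hPinf : P ≠ X.inf := by
      rintro rfl
      exact hP (by rw [hG', Finsupp.erase_same])
    rw [northC_H_eq]
    exact hC' P hPinf
  have h3 : FO.lin (fun P => (n0 X : ℝ) * (htAx X 𝔥).H P + C') (FO.up G')
      = (n0 X : ℝ) * FO.lin (htAx X 𝔥).H (FO.up G') + (G'.degree : ℝ) * C' := by
    rw [lin_fun_add, lin_fun_mul, lin_const_up]
  have h4 : FO.lin (htAx X 𝔥).H (FO.up G') ≤ FO.lin (htAx X 𝔥).H (FO.up G) := by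
    rw [hup, lin_add, lin_single]
    have := northC_H_nonneg X 𝔥 X.inf
    have hs0 : (0 : ℝ) ≤ ((s : ℤ) : ℝ) := by positivity
    nlinarith [mul_nonneg hs0 this]
  have h5 : (G'.degree : ℝ) * C' ≤ (d : ℝ) * |C'| := by
    have h6 : (G'.degree : ℝ) ≤ d := by
      have : G'.degree ≤ d := by omega
      exact_mod_cast this
    calc (G'.degree : ℝ) * C' ≤ (G'.degree : ℝ) * |C'| :=
          mul_le_mul_of_nonneg_left (le_abs_self _) (by positivity)
      _ ≤ (d : ℝ) * |C'| := mul_le_mul_of_nonneg_right h6 (abs_nonneg _)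
  have h7 : (n0 X : ℝ) * FO.lin (htAx X 𝔥).H (FO.up G') ≤ (n0 X : ℝ) * T :=
    mul_le_mul_of_nonneg_left (h4.trans hGT) (by positivity)
  have heta : X.eta (FO.up G') ≤ T' := by
    rw [RatCurve.eta, hT']
    refine div_le_div_of_nonneg_right ?_ (by positivity)
    linarith
  refine ⟨⟨hDD, hdegN, heta⟩, ?_⟩
  change s ≤ d
  omega

end Fermat.Agent.S17.HN
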