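import Fermat.Agent.S17.HN.Grp.Rat
import Fermat.Agent.S17.HN.Grp.Gal
import Fermat.Agent.S17.HN.Grp.NorthC
import Fermat.Agent.S17.HN.Grp.North1
import Fermat.Agent.S17.HN.Grp.North2

/-! # HN-GRP6: Northcott -/

set_option autoImplicit false

namespace Fermat.Agent.S17.HN

open AlgebraicCurve Fermat.Agent.S24.FF Fermat.Agent.S27 Fermat.Agent.GAL.FF Fermat.Agent.S17.FFK

variable (X : RatCurve) (𝔥 : GHt)

/-- **GRP6a.** `h(1 : x(P)) ≤ hh_{n0}(P) + C` (`HYP_global` + `transfer`). -/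
theorem ht_val_le : ∃ C : ℝ, ∀ P : Place Qb X.F, P ≠ X.inf →
    𝔥.ht ![1, val P X.x] ≤ hhN X 𝔥 (n0 X) (Finsupp.single P 1) + C :=
  ht_val_le' X 𝔥

/-- **GRP6b.** height of `∏ (T - x(P))^{A(P)}` (easy direction of Gauss/Mahler; `transfer` + `ht_rat`). -/
theorem polyHt_NA_le (d : ℕ) : ∃ C : ℝ, ∀ A ∈ X.DD, X.degN A ≤ d →
    polyHt (X.NA A) ≤ A.sum (fun P e => (e : ℝ) * 𝔥.ht ![1, val P X.x]) + C :=
  polyHt_NA_le' X 𝔥 d

/-- **GRP6c (Northcott).** -/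
theorem northcott_geo (hN : X.CNC) (d : ℕ) (T : ℝ) :
    {G : Place Qb X.F →₀ ℕ | (∀ σ : GQ, X.act σ • (FO.up G : Divisor Qb X.F) = FO.up G) ∧
      G.degree = d ∧ FO.lin (htAx X 𝔥).H (FO.up G) ≤ T}.Finite :=
  northcott_geo_of X 𝔥 (ht_val_le X 𝔥) (polyHt_NA_le X 𝔥) hN d T

end Fermat.Agent.S17.HN
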