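import Fermat.Agent.S17.HN.Defs

/-! # HN-GRP1: heights of rational vectors; elements of `Qb` fixed by Galois are rational -/

set_option autoImplicit false

namespace Fermat.Agent.S17.HN

/-- a non-zero rational vector is a non-zero multiple of a primitive integral vector. -/
theorem rat1_exists_prim {ι : Type} [Fintype ι] (t : ι → ℚ) (ht : t ≠ 0) :
    ∃ (q : ℚ) (x : ι → ℤ), q ≠ 0 ∧ Finset.univ.gcd x = 1 ∧ ∀ i, t i = q * (x i : ℚ) := by
  classical
  obtain ⟨b, hb⟩ := IsLocalization.exist_integer_multiples_of_finite (nonZeroDivisors ℤ) t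
  choose y hy using hb
  have hb0 : ((b : ℤ) : ℚ) ≠ 0 := by
    have := nonZeroDivisors.coe_ne_zero b
    exact_mod_cast this
  have hy' : ∀ i, (y i : ℚ) = (b : ℤ) * t i := by
    intro i
    have := hy i
    simpa [Algebra.smul_def] using this
  obtain ⟨i0, hi0⟩ : ∃ i, t i ≠ 0 := by
    by_contra hcon
    exact ht (funext fun i => by_contra fun h => hcon ⟨i, h⟩)
  have hne : (Finset.univ : Finset ι).Nonempty := ⟨i0, Finset.mem_univ _⟩
  obtain ⟨x, hx, hgcd⟩ := Finset.extract_gcd y hne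
  have hg0 : Finset.univ.gcd y ≠ 0 := by
    intro h0
    have h1 := hx i0 (Finset.mem_univ _)
    rw [h0, zero_mul] at h1
    have h2 := hy' i0
    rw [h1] at h2
    simp only [Int.cast_zero] at h2
    exact (mul_ne_zero hb0 hi0) h2.symm
  refine ⟨((Finset.univ.gcd y : ℤ) : ℚ) / ((b : ℤ) : ℚ), x,
    div_ne_zero (by exact_mod_cast hg0) hb0, hgcd, fun i => ?_⟩
  have h1 := hx i (Finset.mem_univ _)
  have h2 := hy' i
  rw [h1] at h2
  push_cast at h2
  field_simp
  linarith

/-- **GRP1 (bridge).** On rational vectors the global height is Mathlib's height over `ℚ`. -/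
theorem ht_rat' (𝔥 : GHt) {ι : Type} [Fintype ι] (t : ι → ℚ) (ht : t ≠ 0) :
    𝔥.ht (fun i => algebraMap ℚ Qb (t i)) = Height.logHeight t := by
  obtain ⟨q, x, hq, hgcd, hx⟩ := rat1_exists_prim t ht
  have : Nonempty ι := by
    by_contra hcon
    rw [not_nonempty_iff] at hcon
    exact ht (funext fun i => (hcon.false i).elim)
  have h1 : (fun i => algebraMap ℚ Qb (t i)) =
      (algebraMap ℚ Qb q) • (fun i => ((x i : ℤ) : Qb)) := by
    funext i
    rw [Pi.smul_apply, smul_eq_mul, hx i, map_mul, map_intCast]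
  have h2 : t = q • (((↑) : ℤ → ℚ) ∘ x) := by
    funext i
    rw [Pi.smul_apply, smul_eq_mul, hx i, Function.comp_apply]
  have hq' : algebraMap ℚ Qb q ≠ 0 := by
    rw [Ne, map_eq_zero]
    exact hq
  rw [h1, 𝔥.smul _ _ hq', 𝔥.prim x hgcd, h2, Height.logHeight_smul_eq_logHeight _ hq,
    Rat.logHeight_eq_max_abs_of_gcd_eq_one hgcd]
  congr 1
  rw [Finite.map_iSup_of_monotone _ Int.cast_mono]
  simp

/-- an element of `Qb` fixed by `GQ` is rational -/
theorem exists_rat_of_fixed' (a : Qb) (h : ∀ σ : GQ, σ a = a) :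
    ∃ q : ℚ, algebraMap ℚ Qb q = a := by
  have : IsAlgClosure ℚ Qb := ⟨inferInstance, AlgebraicClosure.isAlgebraic ℚ⟩
  have : IsGalois ℚ Qb := IsAlgClosure.isGalois ℚ Qb
  exact (InfiniteGalois.mem_range_algebraMap_iff_fixed (k := ℚ) (K := Qb) a).2 h

end Fermat.Agent.S17.HN
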