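import Fermat.Agent.S17.HN.LA1

/-! # HN-GRP2: Galois descent in `Qb^d` (reduced echelon form of a Galois stable subspace) -/

set_option autoImplicit false

namespace Fermat.Agent.S17.HN

/-- an element of `Qb` fixed by `GQ` is rational -/
theorem rat2_exists_rat_of_fixed (a : Qb) (h : ∀ σ : GQ, σ a = a) :
    ∃ q : ℚ, algebraMap ℚ Qb q = a := by
  have : IsGalois ℚ Qb :=
    @IsAlgClosure.isGalois ℚ (AlgebraicClosure ℚ) _ _ (AlgebraicClosure.instAlgebra ℚ) _ _
  exact (InfiniteGalois.mem_range_algebraMap_iff_fixed a).mpr h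

theorem rat2_bmat_linearIndependent {d : ℕ} (W : Submodule Qb (Fin d → Qb)) :
    LinearIndependent Qb (fun i => bmat W i) :=
  (Module.finBasis Qb W).linearIndependent.map' W.subtype W.ker_subtype

theorem rat2_rowSpan_bmat {d : ℕ} (W : Submodule Qb (Fin d → Qb)) : rowSpan (bmat W) = W := by
  have h : (Set.range fun i => bmat W i) = W.subtype '' Set.range (Module.finBasis Qb W) := by
    rw [← Set.range_comp]
    rfl
  rw [rowSpan, h, ← Submodule.map_span, (Module.finBasis Qb W).span_eq, Submodule.map_top,
    Submodule.range_subtype]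

/-- **GRP2 (descent in `Qb^d`).** reduced echelon form of a Galois stable subspace is rational. -/
theorem exists_rat_basis' {d : ℕ} (W : Submodule Qb (Fin d → Qb))
    (hW : ∀ σ : GQ, ∀ x ∈ W, (fun i => σ (x i)) ∈ W) :
    ∃ Y : Matrix (Fin (Module.finrank Qb W)) (Fin d) ℚ,
      LinearIndependent Qb (fun i => (Y.map (algebraMap ℚ Qb)) i) ∧
      rowSpan (Y.map (algebraMap ℚ Qb)) = W := by
  classical
  set M := bmat W with hM
  obtain ⟨α, hα⟩ := exists_minor_ne_zero' M (rat2_bmat_linearIndependent W)
  set A := M.submatrix id α with hA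
  have hdet : A.det ≠ 0 := hα
  have hMW : ∀ i, M i ∈ W := fun i => (Module.finBasis Qb W i).2
  set f := A⁻¹ * M with hf
  have hfα : f.submatrix id α = 1 := by
    have h1 : f.submatrix id α = A⁻¹ * A := by
      ext i j
      simp [hf, hA, Matrix.mul_apply]
    rw [h1, Matrix.nonsing_inv_mul _ (Ne.isUnit hdet)]
  have hfW : ∀ i, f i ∈ W := by
    intro i
    have h1 : f i = ∑ k, A⁻¹ i k • M k := by
      ext j
      simp [hf, Matrix.mul_apply]
    rw [h1]
    exact Submodule.sum_mem _ fun k _ => Submodule.smul_mem _ _ (hMW k)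
  -- a vector of `W` is determined by its `α`-coordinates
  have huniq : ∀ w ∈ W, (∀ j, w (α j) = 0) → w = 0 := by
    intro w hw h0
    rw [← rat2_rowSpan_bmat W, rowSpan, Submodule.mem_span_range_iff_exists_fun] at hw
    obtain ⟨c, rfl⟩ := hw
    have hc : Matrix.vecMul c A = 0 := by
      ext j
      have := h0 j
      simp only [Finset.sum_apply, Pi.smul_apply, smul_eq_mul] at this
      simpa [Matrix.vecMul, dotProduct, hA] using this
    rw [Matrix.eq_zero_of_vecMul_eq_zero hdet hc]
    simp
  have hfix : ∀ (σ : GQ) (i : Fin (Module.finrank Qb W)) (j : Fin d), σ (f i j) = f i j := by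
    intro σ i j
    have h1 : (fun j => σ (f i j)) - f i ∈ W := W.sub_mem (hW σ _ (hfW i)) (hfW i)
    have h2 := huniq _ h1 (fun j' => by
      have h3 : f i (α j') = (1 : Matrix _ _ Qb) i j' := by rw [← hfα]; rfl
      show σ (f i (α j')) - f i (α j') = 0
      rw [h3]
      by_cases hij : i = j'
      · rw [hij, Matrix.one_apply_eq, map_one, sub_self]
      · rw [Matrix.one_apply_ne hij, map_zero, sub_self])
    have h4 := congrFun h2 j
    simp only [Pi.sub_apply, Pi.zero_apply] at h4
    exact sub_eq_zero.mp h4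
  choose Y hY using fun i j => rat2_exists_rat_of_fixed (f i j) (fun σ => hfix σ i j)
  have hYf : (Matrix.of Y).map (algebraMap ℚ Qb) = f := by
    ext i j
    exact hY i j
  refine ⟨Matrix.of Y, ?_, ?_⟩
  · rw [hYf]
    refine linearIndependent_of_minor_ne_zero' f α ?_
    show (f.submatrix id α).det ≠ 0
    rw [hfα, Matrix.det_one]
    exact one_ne_zero
  · rw [hYf]
    have hind : LinearIndependent Qb (fun i => f i) := by
      refine linearIndependent_of_minor_ne_zero' f α ?_
      show (f.submatrix id α).det ≠ 0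
      rw [hfα, Matrix.det_one]
      exact one_ne_zero
    refine Submodule.eq_of_le_of_finrank_eq ?_ ?_
    · rw [rowSpan, Submodule.span_le]
      rintro _ ⟨i, rfl⟩
      exact hfW i
    · rw [rowSpan, finrank_span_eq_card hind, Fintype.card_fin]

end Fermat.Agent.S17.HN

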