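import Fermat.Agent.S17.HN.Geo.Ax
import Fermat.Agent.S17.HN.MG1

/-! # HN-GRP3: Siegel's lemma for `GHt` from `CSiegel`, relative to `ht_rat` and `exists_rat_basis`
(passed as hypotheses; the wrapper `siegel_abs` is in `Grp/Rat.lean`). -/

set_option autoImplicit false

namespace Fermat.Agent.S17.HN

open AlgebraicCurve Fermat.Agent.S24.FF Fermat.Agent.GAL.FF Fermat.Agent.S17.FFK

/-- minors commute with a ring homomorphism of fields -/
theorem rats_minors_map {K L : Type} [Field K] [Field L] (f : K →+* L) {r d : ℕ}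
    (Y : Matrix (Fin r) (Fin d) K) : minors (Y.map f) = fun s => f (minors Y s) := by
  funext s
  unfold minors
  rw [RingHom.map_det]
  rfl

/-- the Plücker height of a basis matrix is at most the height of all minors of another one. -/
theorem rats_plucker_le {r r' d : ℕ} (hr : r' = r) (Y : Matrix (Fin r) (Fin d) ℚ)
    (N : Matrix (Fin r') (Fin d) ℚ) (hY : LinearIndependent ℚ (fun i => Y i))
    (hN : LinearIndependent ℚ (fun i => N i)) (h : rowSpan N = rowSpan Y) :
    Height.logHeight (plucker N) ≤ Height.logHeight (minors Y) := by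
  subst hr
  obtain ⟨g, hg, rfl⟩ := exists_mul_of_rowSpan_eq N Y hN hY h
  have h1 : plucker (g * Y) = minors (g * Y) ∘ (fun S : Fin r' ↪o Fin d => (S : Fin r' → Fin d)) := rfl
  rw [h1]
  refine (Height.logHeight_comp_le _ _).trans ?_
  rw [minors_mul, Height.logHeight_smul_eq_logHeight _ hg]

theorem rats_cast_mem {r d : ℕ} (Y : Matrix (Fin r) (Fin d) ℚ) (t : Fin d → ℚ) (ht : t ∈ rowSpan Y) :
    (fun i => algebraMap ℚ Qb (t i)) ∈ rowSpan (Y.map (algebraMap ℚ Qb)) := by
  unfold rowSpan at ht ⊢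
  obtain ⟨c, rfl⟩ := (Submodule.mem_span_range_iff_exists_fun ℚ).mp ht
  rw [Submodule.mem_span_range_iff_exists_fun]
  refine ⟨fun i => algebraMap ℚ Qb (c i), ?_⟩
  funext j
  simp [Finset.sum_apply, Matrix.map_apply]

/-- **GRP3 (Siegel for `GHt`)**, relative to `ht_rat` and `exists_rat_basis`. -/
theorem siegel_abs_aux (𝔥 : GHt)
    (hrat : ∀ {ι : Type} [Fintype ι] (t : ι → ℚ), t ≠ 0 →
      𝔥.ht (fun i => algebraMap ℚ Qb (t i)) = Height.logHeight t)
    (hbas : ∀ {d : ℕ} (W : Submodule Qb (Fin d → Qb)),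
      (∀ σ : GQ, ∀ x ∈ W, (fun i => σ (x i)) ∈ W) →
      ∃ Y : Matrix (Fin (Module.finrank Qb W)) (Fin d) ℚ,
        LinearIndependent Qb (fun i => (Y.map (algebraMap ℚ Qb)) i) ∧
        rowSpan (Y.map (algebraMap ℚ Qb)) = W)
    (hS : CSiegel) (d : ℕ) : ∃ C : ℝ, ∀ W : Submodule Qb (Fin d → Qb), W ≠ ⊥ →
    (∀ σ : GQ, ∀ x ∈ W, (fun i => σ (x i)) ∈ W) →
    ∃ t : Fin d → ℚ, t ≠ 0 ∧ (fun i => algebraMap ℚ Qb (t i)) ∈ W ∧
      (Module.finrank Qb W : ℝ) * 𝔥.ht (fun i => algebraMap ℚ Qb (t i)) ≤ 𝔥.hS W + C := by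
  obtain ⟨C, hC⟩ := hS d
  refine ⟨C, fun W hW0 hW => ?_⟩
  obtain ⟨Y, hli, hspan⟩ := hbas W hW
  -- a nonzero minor
  obtain ⟨s, hs⟩ := exists_minor_ne_zero _ hli
  rw [rats_minors_map] at hs
  have hs' : minors Y s ≠ 0 := fun h => hs (by simp [h])
  have hYli : LinearIndependent ℚ (fun i => Y i) := linearIndependent_of_minor_ne_zero Y s hs'
  have hmin0 : minors Y ≠ 0 := fun h => hs' (congrFun h s)
  -- the rational subspace
  have hfr : Module.finrank ℚ (rowSpan Y) = Module.finrank Qb W := by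
    unfold rowSpan
    rw [finrank_span_eq_card hYli, Fintype.card_fin]
  have hr0 : Module.finrank Qb W ≠ 0 := by
    intro h
    exact hW0 (Submodule.finrank_eq_zero.mp h)
  have hU0 : rowSpan Y ≠ ⊥ := by
    intro h
    rw [h, finrank_bot] at hfr
    exact hr0 hfr.symm
  obtain ⟨t, htU, ht0, hle⟩ := hC (rowSpan Y) hU0
  refine ⟨t, ht0, hspan ▸ rats_cast_mem Y t htU, ?_⟩
  have hhS : 𝔥.hS W = Height.logHeight (minors Y) := by
    have h1 := 𝔥.hS_eq' _ hli
    rw [hspan, rats_minors_map, hrat _ hmin0] at h1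
    exact h1
  rw [hrat t ht0, hhS]
  rw [hfr] at hle
  refine hle.trans (add_le_add_left ?_ C)
  unfold subHt
  refine rats_plucker_le hfr Y _ hYli ?_ ?_
  · exact (Module.finBasis ℚ (rowSpan Y)).linearIndependent.map' (rowSpan Y).subtype
      (Submodule.ker_subtype _)
  · conv_rhs => rw [← Submodule.range_subtype (rowSpan Y), ← Submodule.map_top,
      ← (Module.finBasis ℚ (rowSpan Y)).span_eq, ← Submodule.span_image, ← Set.range_comp]
    rfl

end Fermat.Agent.S17.HN
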