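import Fermat.Agent.S17.HN.Geo.Ax
import Fermat.Agent.S17.HN.Grp.RatS
import Fermat.Agent.S17.HN.Grp.Rat1
import Fermat.Agent.S17.HN.Grp.Rat2

/-! # HN-GRP1/2/3: rational structures: heights of rational vectors, Galois descent in `Qb^d`, Siegel -/

set_option autoImplicit false

namespace Fermat.Agent.S17.HN

open AlgebraicCurve Fermat.Agent.S24.FF Fermat.Agent.GAL.FF Fermat.Agent.S17.FFK

/-- **GRP1 (bridge).** On rational vectors the global height is Mathlib's height over `ℚ`. -/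
theorem GHt.ht_rat (𝔥 : GHt) {ι : Type} [Fintype ι] (t : ι → ℚ) (ht : t ≠ 0) :
    𝔥.ht (fun i => algebraMap ℚ Qb (t i)) = Height.logHeight t :=
  ht_rat' 𝔥 t ht

/-- an element of `Qb` fixed by `GQ` is rational -/
theorem exists_rat_of_fixed (a : Qb) (h : ∀ σ : GQ, σ a = a) : ∃ q : ℚ, algebraMap ℚ Qb q = a :=
  exists_rat_of_fixed' a h

/-- **GRP2 (descent in `Qb^d`).** reduced echelon form of a Galois stable subspace is rational. -/
theorem exists_rat_basis {d : ℕ} (W : Submodule Qb (Fin d → Qb))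
    (hW : ∀ σ : GQ, ∀ x ∈ W, (fun i => σ (x i)) ∈ W) :
    ∃ Y : Matrix (Fin (Module.finrank Qb W)) (Fin d) ℚ,
      LinearIndependent Qb (fun i => (Y.map (algebraMap ℚ Qb)) i) ∧
      rowSpan (Y.map (algebraMap ℚ Qb)) = W :=
  exists_rat_basis' W hW

/-- **GRP3 (Siegel for `GHt`).** -/
theorem siegel_abs (𝔥 : GHt) (hS : CSiegel) (d : ℕ) : ∃ C : ℝ, ∀ W : Submodule Qb (Fin d → Qb), W ≠ ⊥ →
    (∀ σ : GQ, ∀ x ∈ W, (fun i => σ (x i)) ∈ W) →
    ∃ t : Fin d → ℚ, t ≠ 0 ∧ (fun i => algebraMap ℚ Qb (t i)) ∈ W ∧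
      (Module.finrank Qb W : ℝ) * 𝔥.ht (fun i => algebraMap ℚ Qb (t i)) ≤ 𝔥.hS W + C :=
  siegel_abs_aux 𝔥 (fun t ht => 𝔥.ht_rat t ht) (fun W hW => exists_rat_basis W hW) hS d

end Fermat.Agent.S17.HN
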